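/-
Programme T1B (S44), cell R2/BRANDT, item (b) FILE 2 'DegreeC' (helper27, for helper14's plan):
the two degeneracy maps of the CHARACTERISTIC-`p` function fields
`k_N = κ(j̃(q^d) : d ∣ N) = modularFunctionFieldFullC κ N ⊂ κ((q))` at a prime `l ∤ N`, `l ≠ p`, `p ∤ N`:

* `alphaC κ N l` (inclusion), `betaC κ N l` (`q ↦ q^l`) : `k_N →ₐ[κ] k_{Nl}`;
* `relfinrank_alphaC`, `relfinrank_betaC` : both relative degrees are `l + 1`;
* `finrankAlong_alphaC`, `finrankAlong_betaC`, `finiteAlong_alphaC`, `finiteAlong_betaC`,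
  `isIntegral_alphaC`, `isIntegral_betaC` (Prelude `Along` vocabulary, as in characteristic `0`);
* `isSeparable_alphaC` (`κ` perfect): `k_{Nl}` is separable over `k_N` along `ᾱ`
  (`RED/PUR/SepLaurent25`: everything in `κ((q))` algebraic over `κ(j̃)` is separable), and
  `separableAlong_alphaC` in the Prelude's `SeparableAlong` form.
-/
import Mathlib
import Fermat.Agent.ES.HECKE.AlongDegree25
import Fermat.Agent.RED.PUR.SepLaurent25

set_option autoImplicit false
set_option linter.unusedSectionVars false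
set_option linter.style.haveILetI false

noncomputable section

open HahnSeries ModularCurve IntermediateField AlgebraicCurve

namespace Fermat.Agent.T1B.Brandt27

open Fermat.Agent.IG Fermat.Agent.RED.PUR Fermat.Agent.ES.HECKE

/-! ### the maps -/

section Maps

variable (κ : Type) [Field κ] (N l : ℕ) [NeZero N] [NeZero l]

/-- `ᾱ : k_N → k_{Nl}`, the inclusion. -/
def alphaC : ↥(modularFunctionFieldFullC κ N) →ₐ[κ] ↥(modularFunctionFieldFullC κ (N * l)) :=
  IntermediateField.inclusion (full_degeneracyC_le κ (dvd_mul_right N l))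

@[simp]
theorem coe_alphaC (x : ↥(modularFunctionFieldFullC κ N)) :
    ((alphaC κ N l x : ↥(modularFunctionFieldFullC κ (N * l))) : LaurentSeries κ) =
      (x : LaurentSeries κ) :=
  IntermediateField.coe_inclusion _ x

/-- membership of `x(q^l)`. -/
theorem qExpand_mem_fullC (x : ↥(modularFunctionFieldFullC κ N)) :
    qExpand κ l (x : LaurentSeries κ) ∈ modularFunctionFieldFullC κ (N * l) :=
  full_degeneracyC_map_le κ N l ⟨x, x.2, rfl⟩

/-- `β̄` as a ring hom. -/
def betaCRingHom :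
    ↥(modularFunctionFieldFullC κ N) →+* ↥(modularFunctionFieldFullC κ (N * l)) where
  toFun x := ⟨qExpand κ l (x : LaurentSeries κ), qExpand_mem_fullC κ N l x⟩
  map_one' := Subtype.ext (map_one (qExpand κ l))
  map_mul' _ _ := Subtype.ext (map_mul (qExpand κ l) _ _)
  map_zero' := Subtype.ext (map_zero (qExpand κ l))
  map_add' _ _ := Subtype.ext (map_add (qExpand κ l) _ _)

/-- `β̄ : k_N → k_{Nl}`, `q ↦ q^l`. -/
def betaC : ↥(modularFunctionFieldFullC κ N) →ₐ[κ] ↥(modularFunctionFieldFullC κ (N * l)) :=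
  { betaCRingHom κ N l with
    commutes' := fun a => Subtype.ext <| by
      show qExpand κ l (algebraMap κ (LaurentSeries κ) a) = algebraMap κ (LaurentSeries κ) a
      rw [algebraMap_laurentSeries_eq_single, qExpand_single, mul_zero] }

@[simp]
theorem coe_betaC (x : ↥(modularFunctionFieldFullC κ N)) :
    ((betaC κ N l x : ↥(modularFunctionFieldFullC κ (N * l))) : LaurentSeries κ) =
      qExpand κ l (x : LaurentSeries κ) := rfl

end Maps

/-! ### degrees -/

section Degrees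

variable (κ : Type) [Field κ] (p : ℕ) [Fact p.Prime] [CharP κ p] (N l : ℕ) [NeZero N] [NeZero l]

theorem simple_le_fullC' (M : ℕ) : κ⟮jqModC κ⟯ ≤ modularFunctionFieldFullC κ M := by
  rw [adjoin_simple_le_iff]
  exact jqModC_mem_full κ M

/-- `p ∤ N l`. -/
theorem not_dvd_mul' {p N l : ℕ} (hp : p.Prime) (hl : l.Prime) (hpN : ¬ p ∣ N) (hpl : p ≠ l) :
    ¬ p ∣ N * l := by
  intro h
  rcases (Nat.Prime.dvd_mul hp).mp h with h | h
  · exact hpN h
  · exact hpl ((Nat.prime_dvd_prime_iff_eq hp hl).mp h)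

/-- `l` is invertible in `κ`. -/
theorem cast_ne_zero_of_ne (hl : l.Prime) (hpl : p ≠ l) : (l : κ) ≠ 0 := by
  intro h0
  rw [CharP.cast_eq_zero_iff κ p] at h0
  exact hpl ((Nat.prime_dvd_prime_iff_eq (Fact.out : p.Prime) hl).mp h0)

/-- **`[k_{Nl} : k_N] = l + 1`** in characteristic `p`, `l ∤ N` prime, `p ∤ N l`. -/
theorem relfinrank_alphaC (hl : l.Prime) (hlN : ¬ l ∣ N) (hpN : ¬ p ∣ N) (hpl : p ≠ l) :
    relfinrank (modularFunctionFieldFullC κ N) (modularFunctionFieldFullC κ (N * l)) = l + 1 := by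
  have hpNl : ¬ p ∣ N * l := not_dvd_mul' (Fact.out : p.Prime) hl hpN hpl
  have h1 := DegBaseChange25.relfinrank_fullC_eq_psi_of_charP p κ N hpN
  have h2 := DegBaseChange25.relfinrank_fullC_eq_psi_of_charP p κ (N * l) hpNl
  have hmul := relfinrank_mul_relfinrank (simple_le_fullC' κ N)
    (full_degeneracyC_le κ (dvd_mul_right N l))
  rw [h1, h2, DegreeL25.psi_mul_prime N l hl hlN] at hmul
  exact Nat.eq_of_mul_eq_mul_left (Fermat.Agent.X0.GNPsi.gnp_dedekindPsi_pos (NeZero.ne N)) hmul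

/-- **`[k_{Nl} : V(k_N)] = l + 1`** in characteristic `p`, `V = (q ↦ q^l)`. -/
theorem relfinrank_betaC (hl : l.Prime) (hlN : ¬ l ∣ N) (hpN : ¬ p ∣ N) (hpl : p ≠ l) :
    relfinrank ((modularFunctionFieldFullC κ N).map (qExpandAlgHomC κ l))
      (modularFunctionFieldFullC κ (N * l)) = l + 1 := by
  have hpNl : ¬ p ∣ N * l := not_dvd_mul' (Fact.out : p.Prime) hl hpN hpl
  have hψN := DegBaseChange25.relfinrank_fullC_eq_psi_of_charP p κ N hpN
  have hψNl := DegBaseChange25.relfinrank_fullC_eq_psi_of_charP p κ (N * l) hpNl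
  have hψpos := Fermat.Agent.X0.GNPsi.gnp_dedekindPsi_pos (NeZero.ne N)
  have hlκ : (l : κ) ≠ 0 := cast_ne_zero_of_ne κ p l hl hpl
  obtain ⟨⟨-, hleft⟩, ⟨-, hright⟩⟩ := PR.Main20.primeLevel l hl.two_le (AN.ModPoly3.p0 l hl)
    AN.FormalJ10.p1 (AN.P2Final9.p2 l) κ hlκ
  -- the fields
  have hA : κ⟮jqModC κ⟯ ≤ κ⟮jqModC κ⟯ ⊔ κ⟮qExpand κ l (jqModC κ)⟯ := le_sup_left
  have hAl : κ⟮qExpand κ l (jqModC κ)⟯ ≤ κ⟮jqModC κ⟯ ⊔ κ⟮qExpand κ l (jqModC κ)⟯ := le_sup_right
  have hjl : qExpand κ l (jqModC κ) ∈ modularFunctionFieldFullC κ (N * l) :=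
    jqModCd_mem_full κ (N * l) (dvd_mul_left l N)
  have hC : κ⟮jqModC κ⟯ ⊔ κ⟮qExpand κ l (jqModC κ)⟯ ≤ modularFunctionFieldFullC κ (N * l) :=
    sup_le (simple_le_fullC' κ (N * l)) (adjoin_simple_le_iff.mpr hjl)
  -- `[k_{Nl} : κ(j, j_l)] = ψ(N)`
  have h1 := relfinrank_mul_relfinrank hA hC
  rw [hleft, hψNl, DegreeL25.psi_mul_prime N l hl hlN, mul_comm] at h1
  have hx : relfinrank (κ⟮jqModC κ⟯ ⊔ κ⟮qExpand κ l (jqModC κ)⟯)
      (modularFunctionFieldFullC κ (N * l)) = dedekindPsi N :=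
    Nat.eq_of_mul_eq_mul_right (Nat.succ_pos l) h1
  -- `[k_{Nl} : κ(j_l)] = (l + 1) ψ(N)`
  have h2 := relfinrank_mul_relfinrank hAl hC
  rw [hright, hx] at h2
  -- `V(κ(j)) = κ(j_l) ≤ V(k_N) ≤ k_{Nl}`
  have hmapA : (κ⟮jqModC κ⟯).map (qExpandAlgHomC κ l) = κ⟮qExpand κ l (jqModC κ)⟯ := by
    rw [adjoin_map, Set.image_singleton, qExpandAlgHomC_apply]
  have hle1 : κ⟮qExpand κ l (jqModC κ)⟯ ≤
      (modularFunctionFieldFullC κ N).map (qExpandAlgHomC κ l) := by
    rw [← hmapA]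
    exact IntermediateField.map_mono _ (simple_le_fullC' κ N)
  have hle2 : (modularFunctionFieldFullC κ N).map (qExpandAlgHomC κ l) ≤
      modularFunctionFieldFullC κ (N * l) := full_degeneracyC_map_le κ N l
  have h3 : relfinrank κ⟮qExpand κ l (jqModC κ)⟯
      ((modularFunctionFieldFullC κ N).map (qExpandAlgHomC κ l)) = dedekindPsi N := by
    rw [← hmapA, relfinrank_map_map, hψN]
  have h4 := relfinrank_mul_relfinrank hle1 hle2
  rw [h3, ← h2, mul_comm (l + 1)] at h4
  exact Nat.eq_of_mul_eq_mul_left hψpos h4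

/-- **`[k_{Nl} : ᾱ(k_N)] = l + 1`**, `Along` form. -/
theorem finrankAlong_alphaC (hl : l.Prime) (hlN : ¬ l ∣ N) (hpN : ¬ p ∣ N) (hpl : p ≠ l) :
    finrankAlong κ (alphaC κ N l) = l + 1 := by
  rw [AlongDegree25.finrankAlong_eq_relfinrank _ _ (alphaC κ N l) (AlgHom.id κ (LaurentSeries κ))
    (fun a => by rw [coe_alphaC]; rfl), IntermediateField.map_id]
  exact relfinrank_alphaC κ p N l hl hlN hpN hpl

/-- **`[k_{Nl} : β̄(k_N)] = l + 1`**, `Along` form. -/
theorem finrankAlong_betaC (hl : l.Prime) (hlN : ¬ l ∣ N) (hpN : ¬ p ∣ N) (hpl : p ≠ l) :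
    finrankAlong κ (betaC κ N l) = l + 1 := by
  rw [AlongDegree25.finrankAlong_eq_relfinrank _ _ (betaC κ N l) (qExpandAlgHomC κ l)
    (fun a => by rw [coe_betaC, qExpandAlgHomC_apply])]
  exact relfinrank_betaC κ p N l hl hlN hpN hpl

theorem finiteAlong_alphaC (hl : l.Prime) (hlN : ¬ l ∣ N) (hpN : ¬ p ∣ N) (hpl : p ≠ l) :
    FiniteAlong κ (alphaC κ N l) :=
  AlongDegree25.finiteAlong_of_finrankAlong_pos _
    (by rw [finrankAlong_alphaC κ p N l hl hlN hpN hpl]; exact Nat.succ_pos l)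

theorem finiteAlong_betaC (hl : l.Prime) (hlN : ¬ l ∣ N) (hpN : ¬ p ∣ N) (hpl : p ≠ l) :
    FiniteAlong κ (betaC κ N l) :=
  AlongDegree25.finiteAlong_of_finrankAlong_pos _
    (by rw [finrankAlong_betaC κ p N l hl hlN hpN hpl]; exact Nat.succ_pos l)

theorem isIntegral_alphaC (hl : l.Prime) (hlN : ¬ l ∣ N) (hpN : ¬ p ∣ N) (hpl : p ≠ l) :
    (alphaC κ N l).toRingHom.IsIntegral :=
  AlongDegree25.isIntegral_of_finiteAlong _ (finiteAlong_alphaC κ p N l hl hlN hpN hpl)

theorem isIntegral_betaC (hl : l.Prime) (hlN : ¬ l ∣ N) (hpN : ¬ p ∣ N) (hpl : p ≠ l) :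
    (betaC κ N l).toRingHom.IsIntegral :=
  AlongDegree25.isIntegral_of_finiteAlong _ (finiteAlong_betaC κ p N l hl hlN hpN hpl)

end Degrees

/-! ### separability -/

section Separable

variable (κ : Type) [Field κ] (p : ℕ) [Fact p.Prime] [CharP κ p] [PerfectField κ]
  (M : ℕ) [NeZero M]

/-- every element of `k_M` (`p ∤ M`) is algebraic over `κ(j̃)`. -/
theorem isAlgebraic_of_mem_fullC (hpM : ¬ p ∣ M) {y : LaurentSeries κ}
    (hy : y ∈ modularFunctionFieldFullC κ M) : IsAlgebraic κ⟮jqModC κ⟯ y := by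
  have hle := simple_le_fullC' κ M
  have hψ := DegBaseChange25.relfinrank_fullC_eq_psi_of_charP p κ M hpM
  have hpos : 0 < relfinrank κ⟮jqModC κ⟯ (modularFunctionFieldFullC κ M) := by
    rw [hψ]
    exact Fermat.Agent.X0.GNPsi.gnp_dedekindPsi_pos (NeZero.ne M)
  rw [relfinrank_eq_finrank_of_le hle] at hpos
  haveI : FiniteDimensional κ⟮jqModC κ⟯ (extendScalars hle) := FiniteDimensional.of_finrank_pos hpos
  have hint : IsIntegral κ⟮jqModC κ⟯ (⟨y, (mem_extendScalars hle).mpr hy⟩ : extendScalars hle) :=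
    IsIntegral.of_finite _ _
  have h2 := hint.map (IsScalarTower.toAlgHom κ⟮jqModC κ⟯ (extendScalars hle) (LaurentSeries κ))
  exact h2.isAlgebraic

/-- every element of `k_M` (`p ∤ M`) is separable over `κ(j̃)`. -/
theorem isSeparable_of_mem_fullC (hpM : ¬ p ∣ M) {y : LaurentSeries κ}
    (hy : y ∈ modularFunctionFieldFullC κ M) : IsSeparable κ⟮jqModC κ⟯ y :=
  SepLaurent25.isSeparable_of_isAlgebraic_of_order p (Fermat.Agent.IG.AN.ModPoly3.order_jqModC κ)
    (isAlgebraic_of_mem_fullC κ p M hpM hy)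

variable (N l : ℕ) [NeZero N] [NeZero l]

/-- Generic tool: an element `y` of an intermediate field `B` whose image in `κ((q))` is separable
over `κ(j̃)` is separable over `A` along any `φ : A → B` such that the inclusion `κ(j̃) ⊂ B` factors
through `φ`. -/
theorem isSeparable_along_of_factor
    (A B : IntermediateField κ (LaurentSeries κ)) (φ : ↥A →ₐ[κ] ↥B)
    (ι : ↥(κ⟮jqModC κ⟯) →+* ↥A)
    (hι : ∀ c : ↥(κ⟮jqModC κ⟯), ((φ (ι c) : ↥B) : LaurentSeries κ) = (c : LaurentSeries κ))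
    (y : ↥B) (hy : IsSeparable κ⟮jqModC κ⟯ (y : LaurentSeries κ)) :
    letI := algebraAlong φ
    IsSeparable ↥A y := by
  letI := algebraAlong φ
  -- the separable polynomial over `κ(j̃)`
  set g := minpoly κ⟮jqModC κ⟯ (y : LaurentSeries κ) with hg
  have hgsep : g.Separable := hy
  have hg' : (g.map ι).Separable := hgsep.map
  -- `y` is a root of `g.map ι` (computed in `κ((q))`)
  have hroot : Polynomial.aeval y (g.map ι) = 0 := by
    apply Subtype.val_injective
    have h1 : ((Polynomial.aeval y (g.map ι) : ↥B) : LaurentSeries κ) =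
        Polynomial.aeval (y : LaurentSeries κ) g := by
      rw [Polynomial.aeval_def, Polynomial.eval₂_map, Polynomial.aeval_def]
      have h2 : (B.val : ↥B →+* LaurentSeries κ).comp ((algebraMap ↥A ↥B).comp ι) =
          algebraMap ↥(κ⟮jqModC κ⟯) (LaurentSeries κ) :=
        RingHom.ext fun c => hι c
      rw [← h2]
      exact (Polynomial.hom_eval₂ g ((algebraMap ↥A ↥B).comp ι) (B.val : ↥B →+* LaurentSeries κ)
        y)
    rw [h1, hg, minpoly.aeval]
    rfl
  exact hg'.of_dvd (minpoly.dvd _ _ hroot)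

/-- **`k_{Nl}` is separable over `k_N` along `ᾱ`** (`κ` perfect, `p ∤ N l`). -/
theorem isSeparable_alphaC (hpNl : ¬ p ∣ N * l) :
    letI := algebraAlong (alphaC κ N l)
    Algebra.IsSeparable ↥(modularFunctionFieldFullC κ N)
      ↥(modularFunctionFieldFullC κ (N * l)) := by
  letI := algebraAlong (alphaC κ N l)
  refine ⟨fun y => ?_⟩
  exact isSeparable_along_of_factor κ _ _ (alphaC κ N l)
    (IntermediateField.inclusion (simple_le_fullC' κ N)).toRingHom
    (fun c => by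
      rw [coe_alphaC]
      exact IntermediateField.coe_inclusion (simple_le_fullC' κ N) c) y
    (isSeparable_of_mem_fullC κ p (N * l) hpNl y.2)

/-- the Prelude's `SeparableAlong` form. -/
theorem separableAlong_alphaC (hpNl : ¬ p ∣ N * l) : SeparableAlong κ (alphaC κ N l) :=
  isSeparable_alphaC κ p N l hpNl

end Separable

end Fermat.Agent.T1B.Brandt27
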