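/-
Programme T1B (S44), cell R2/BRANDT (helper27): BRIDGE between the three (identical) definitions of the
characteristic-`p` degeneracy maps `ᾱ, β̄ : k_N → k_{Nl}` that were landed in parallel:
`Brandt14.alphaC/betaC` (helper14), `Brandt27.alphaC/betaC` (helper27),
`Hecke87.CharPX0.alphaC/betaC` (helper87).  They are EQUAL; consequently every theorem about one of them
is a theorem about the others.  In particular, for `Brandt14`'s maps (used by `Brandt14.NormRedX0`):
separability along `ᾱ` and `β̄`, integrality, the norm formula, `ord (β̄ g)`, the fundamental identity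
(from `Hecke87.CharPX0`).
-/
import Mathlib
import Fermat.Agent.T1B.Brandt14.DegreeC
import Fermat.Agent.T1B.Brandt27.DegreeC
import Fermat.Agent.T1B.Hecke87.CharPX0

set_option autoImplicit false
set_option linter.unusedSectionVars false

noncomputable section

open HahnSeries ModularCurve IntermediateField AlgebraicCurve

namespace Fermat.Agent.T1B.Brandt27.BridgeC

open Fermat.Agent.T1B

section Eq

variable (κ : Type) [Field κ] (N l : ℕ) [NeZero N] [NeZero l]

theorem alphaC14_eq_alphaC87 : Brandt14.alphaC κ N l = Hecke87.CharPX0.alphaC κ N l := rfl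

theorem betaC14_eq_betaC87 : Brandt14.betaC κ N l = Hecke87.CharPX0.betaC κ N l :=
  AlgHom.ext fun x => Subtype.ext (by rw [Brandt14.coe_betaC, Hecke87.CharPX0.coe_betaC])

theorem alphaC27_eq_alphaC14 : Brandt27.alphaC κ N l = Brandt14.alphaC κ N l := rfl

theorem betaC27_eq_betaC14 : Brandt27.betaC κ N l = Brandt14.betaC κ N l :=
  AlgHom.ext fun x => Subtype.ext (by rw [Brandt27.coe_betaC, Brandt14.coe_betaC])

theorem alphaC27_eq_alphaC87 : Brandt27.alphaC κ N l = Hecke87.CharPX0.alphaC κ N l := rfl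

theorem betaC27_eq_betaC87 : Brandt27.betaC κ N l = Hecke87.CharPX0.betaC κ N l :=
  (betaC27_eq_betaC14 κ N l).trans (betaC14_eq_betaC87 κ N l)

end Eq

section Sep

variable (κ : Type) [Field κ] (p : ℕ) [Fact p.Prime] [CharP κ p] [PerfectField κ]
  (N l : ℕ) [NeZero N] [NeZero l]

/-- **`k_{Nl} / ᾱ(k_N)` is separable**, for `Brandt14.alphaC`. -/
theorem separableAlong_alphaC14 (hpNl : ¬ p ∣ N * l) : SeparableAlong κ (Brandt14.alphaC κ N l) := by
  rw [alphaC14_eq_alphaC87]
  exact Hecke87.CharPX0.separableAlong_alphaC κ p N l hpNl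

/-- **`k_{Nl} / β̄(k_N)` is separable**, for `Brandt14.betaC`. -/
theorem separableAlong_betaC14 (hpNl : ¬ p ∣ N * l) (hl : l.Prime) (hpl : p ≠ l) :
    SeparableAlong κ (Brandt14.betaC κ N l) := by
  rw [betaC14_eq_betaC87]
  exact Hecke87.CharPX0.separableAlong_betaC κ p N l hpNl hl
    (Brandt27.cast_ne_zero_of_ne κ p l hl hpl)

/-- the same in instance form (helper14's requested shape). -/
theorem isSeparable_alphaC14 (hpNl : ¬ p ∣ N * l) :
    letI := algebraAlong (Brandt14.alphaC κ N l)
    Algebra.IsSeparable ↥(modularFunctionFieldFullC κ N) ↥(modularFunctionFieldFullC κ (N * l)) :=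
  separableAlong_alphaC14 κ p N l hpNl

theorem isSeparable_betaC14 (hpNl : ¬ p ∣ N * l) (hl : l.Prime) (hpl : p ≠ l) :
    letI := algebraAlong (Brandt14.betaC κ N l)
    Algebra.IsSeparable ↥(modularFunctionFieldFullC κ N) ↥(modularFunctionFieldFullC κ (N * l)) :=
  separableAlong_betaC14 κ p N l hpNl hl hpl

/-- separability along `β̄` for `Brandt27.betaC`. -/
theorem separableAlong_betaC27 (hpNl : ¬ p ∣ N * l) (hl : l.Prime) (hpl : p ≠ l) :
    SeparableAlong κ (Brandt27.betaC κ N l) := by
  rw [betaC27_eq_betaC87]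
  exact Hecke87.CharPX0.separableAlong_betaC κ p N l hpNl hl
    (Brandt27.cast_ne_zero_of_ne κ p l hl hpl)

end Sep

end Fermat.Agent.T1B.Brandt27.BridgeC
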