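/-
Programme T1B (S44), cell R2/BRANDT, item (b), constants (helper27): the norm of a constant along a
degeneracy map, `N_φ (ψ c) = c ^ [F' : φ F]` for `c ∈ K` — the hypothesis `hC` of
`Brandt36.Main.rho_correspondence_W`.
-/
import Mathlib
import Fermat.Agent.ES.HECKE.PointFormula28

set_option autoImplicit false
set_option linter.unusedSectionVars false
set_option linter.style.haveILetI false

noncomputable section

open AlgebraicCurve

namespace Fermat.Agent.T1B.Brandt27

open Fermat.Agent.ES.HECKE.PointFormula28

variable {K F F' : Type*} [Field K] [Field F] [Field F'] [Algebra K F] [Algebra K F']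

/-- the norm along `φ` of an element of `φ F`. -/
theorem normAlong_map (φ : F →ₐ[K] F') (a : F) :
    normAlong φ (φ a) = a ^ finrankAlong K φ := by
  letI := algebraAlong φ
  show Algebra.norm F (algebraMap F F' a) = a ^ Module.finrank F F'
  exact Algebra.norm_algebraMap a

/-- **`N_φ (ψ c) = c ^ [F' : φ F]`** for a constant `c ∈ K`. -/
theorem normAlong_map_algebraMap (φ ψ : F →ₐ[K] F') (c : K) :
    normAlong φ (ψ (algebraMap K F c)) = algebraMap K F (c ^ finrankAlong K φ) := by
  rw [AlgHom.commutes, ← AlgHom.commutes φ, normAlong_map, map_pow]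

/-- the norm of a constant is a constant. -/
theorem normAlong_map_mem_fieldRange (φ ψ : F →ₐ[K] F') {x : F}
    (hx : x ∈ (algebraMap K F).fieldRange) :
    normAlong φ (ψ x) ∈ (algebraMap K F).fieldRange := by
  obtain ⟨c, rfl⟩ := hx
  rw [normAlong_map_algebraMap]
  exact ⟨_, rfl⟩

end Fermat.Agent.T1B.Brandt27
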